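import Fermat.Agent.S36.H512.Desc
import Fermat.Agent.S35.H858.NormBC
import Fermat.Agent.S29.H812.HeckeInputs
import Fermat.Agent.A2.IF.H429.IF
import Fermat.Agent.A2.ModDefs
import Fermat.Agent.A2.H129.Kummer

/-!
# S36-ENGINE, cell DESC-I (helper512): the Kummer engine only has to be proved over `K = ℚ̄^{I_P}`

`H36.KummerQNewInertiaStatement` (helper36, `S36/H36/Kummer.lean`) is a statement about functions
`f ∈ F̄_{Nq} = ℚ̄(X₀(Nq))` whose class is fixed by the inertia group `I_P`.  This file removes the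
inertia group: by `H512.desc_iota` such an `f` is, up to a constant and an `m`-th power, a function
`g` with coefficients in the inertia field `K = ℚ̄^{I_P}` (the maximal extension of `ℚ` inside `ℚ̄`
which is unramified at `P`), and all hypotheses descend to `K`:

* `LevelKummerAt N q p P` : the engine over `K`, in the vocabulary of `A2/Spec.lean`
  (`FE K N`, `DivisibleDiv K m g`), norms `N_α g`, `N_β g ∈ Kˣ · (F_{K,N}ˣ)^m`, conclusion
  `g ^ (p ^ k) ∈ Kˣ · (F_{K,Nq}ˣ)^m`.  No Galois action is left.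
* `KummerAt N q p P`      : the body of `H36.KummerQNewInertiaStatement` at `(N, q, p, P)`.
* `kummerAt_of_levelAt`   : `LevelKummerAt N q p P → KummerAt N q p P`.
* `kummer_of_level_gen`   : the same for any subgroup `H`, its fixed field `K`, any `m > 0` and
  any exponent `c`.
* `goodField_inertiaField`: `A2.GoodField P (inertiaField P)`, so `R = P ∩ K` is a henselian
  discrete valuation ring with algebraically closed residue field.
-/

set_option autoImplicit false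
set_option linter.style.haveILetI false
set_option synthInstance.maxHeartbeats 400000
set_option maxHeartbeats 1600000

noncomputable section

namespace Fermat.Agent.S36.H512

open ModularCurve AlgebraicCurve HahnSeries IntermediateField
open Fermat.Agent.A2 (FE DivisibleDiv GoodField)
open Fermat.Agent.A2.T1.H669 (iota)
open Fermat.Agent.S29.H395 (normAlong)

local notation "Q̄" => AlgebraicClosure ℚ

/-! ## 1. Descent of fixed functions and of monic roots to the fixed field -/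

section Gen

variable (F₀ : IntermediateField ℚ (LaurentSeries ℚ))
variable (H : Subgroup (Q̄ ≃ₐ[ℚ] Q̄)) (K : IntermediateField ℚ Q̄)

/-- Functions with coefficients in `K ⊆ ℚ̄^H` are fixed by `H`. -/
theorem arithmeticRingAut_iota (hK : ∀ x ∈ K, ∀ τ ∈ H, τ x = x) (g : laurentBaseChange K F₀)
    {τ : Q̄ ≃ₐ[ℚ] Q̄} (hτ : τ ∈ H) :
    arithmeticRingAut F₀ τ (iota K F₀ g) = iota K F₀ g := by
  apply Subtype.ext
  show coeffMap (τ : Q̄ →+* Q̄) (coeffMap (algebraMap K Q̄) (g : LaurentSeries K)) =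
    coeffMap (algebraMap K Q̄) (g : LaurentSeries K)
  rw [coeffMap_coeffMap]
  exact coeffMap_congr (RingHom.ext fun e : K => hK (e : Q̄) e.2 τ hτ) _

/-- An `H`-fixed element of `F̄` comes from `F_K` as soon as `ℚ̄^H ⊆ K`. -/
theorem exists_iota_eq_of_fixed (hK : ∀ x : Q̄, (∀ τ ∈ H, τ x = x) → x ∈ K)
    (f' : laurentBaseChange Q̄ F₀) (hfix : ∀ τ ∈ H, arithmeticRingAut F₀ τ f' = f') :
    ∃ g : laurentBaseChange K F₀, iota K F₀ g = f' := by
  have hcoeff : ∀ n : ℤ, (f' : LaurentSeries Q̄).coeff n ∈ Set.range (algebraMap K Q̄) := by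
    intro n
    have hmem : (f' : LaurentSeries Q̄).coeff n ∈ K := by
      apply hK
      intro τ hτ
      have h2 := congrArg (fun z : laurentBaseChange Q̄ F₀ => (z : LaurentSeries Q̄).coeff n)
        (hfix τ hτ)
      simpa using h2
    exact ⟨⟨_, hmem⟩, rfl⟩
  obtain ⟨y, hy⟩ := Fermat.Agent.S18.H602.exists_coeffMap_eq (algebraMap K Q̄)
    (algebraMap K Q̄).injective (f' : LaurentSeries Q̄) hcoeff
  have hymem : y ∈ laurentBaseChange K F₀ := by
    apply Fermat.Agent.S29.H882.mem_laurentBaseChange_of_coeffMap_mem (algebraMap K Q̄) F₀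
    rw [hy]
    exact f'.2
  exact ⟨⟨y, hymem⟩, Subtype.ext hy⟩

/-- The leading coefficient commutes with `iota`. -/
theorem lcHom_iota (g : laurentBaseChange K F₀) :
    lcHom F₀ (iota K F₀ g) = algebraMap K Q̄ (lcHom F₀ g) := by
  show (coeffMap (algebraMap K Q̄) (g : LaurentSeries K)).leadingCoeff = _
  rw [leadingCoeff_coeffMap _ (algebraMap K Q̄).injective]
  rfl

/-- **DESC, general fixed field.**  If `τ f ∈ ℚ̄ · (F̄)^m · f` for all `τ ∈ H` and `ℚ̄^H ⊆ K`, then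
`c · h^m · f = iota g` for some `g ≠ 0` over `K`. -/
theorem desc_iota_gen (hK : ∀ x : Q̄, (∀ τ ∈ H, τ x = x) → x ∈ K) {m : ℕ} (hm : 0 < m)
    (f : laurentBaseChange Q̄ F₀) (hf : f ≠ 0)
    (hinv : ∀ τ ∈ H, ∃ (c : Q̄) (y : laurentBaseChange Q̄ F₀),
      arithmeticRingAut F₀ τ f = algebraMap Q̄ (laurentBaseChange Q̄ F₀) c * y ^ m * f) :
    ∃ (g : laurentBaseChange K F₀) (c : Q̄) (h : laurentBaseChange Q̄ F₀),
      g ≠ 0 ∧ c ≠ 0 ∧ h ≠ 0 ∧
      iota K F₀ g = algebraMap Q̄ (laurentBaseChange Q̄ F₀) c * h ^ m * f := by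
  obtain ⟨c, h, hc, hh, hfix⟩ := desc_fixed F₀ H hm f hf hinv
  obtain ⟨g, hg⟩ := exists_iota_eq_of_fixed F₀ H K hK _ hfix
  refine ⟨g, c, h, ?_, hc, hh, hg⟩
  rintro rfl
  rw [map_zero] at hg
  have hCc : algebraMap Q̄ (laurentBaseChange Q̄ F₀) c ≠ 0 := by
    rw [Ne, map_eq_zero]
    exact hc
  exact mul_ne_zero (mul_ne_zero hCc (pow_ne_zero m hh)) hf hg.symm

/-- **Descent of roots.**  If `G ∈ F_K` becomes a constant times an `m`-th power in `F̄`, then it
is a constant of `K` times an `m`-th power in `F_K` (`K = ℚ̄^H`). -/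
theorem exists_const_mul_pow_of_iota (hK : ∀ x : Q̄, x ∈ K ↔ ∀ τ ∈ H, τ x = x) {m : ℕ}
    (hm : 0 < m) (G : laurentBaseChange K F₀) (hG : G ≠ 0) (c₁ : Q̄)
    (H₁ : laurentBaseChange Q̄ F₀)
    (hGH : iota K F₀ G = algebraMap Q̄ (laurentBaseChange Q̄ F₀) c₁ * H₁ ^ m) :
    ∃ (c : K) (a : laurentBaseChange K F₀), c ≠ 0 ∧ a ≠ 0 ∧
      G = algebraMap K (laurentBaseChange K F₀) c * a ^ m := by
  set C : Q̄ →+* laurentBaseChange Q̄ F₀ := algebraMap Q̄ (laurentBaseChange Q̄ F₀) with hC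
  have hιG : iota K F₀ G ≠ 0 := Fermat.Agent.A2.T1.H669.iota_ne_zero K F₀ hG
  have hH₁ : H₁ ≠ 0 := by
    rintro rfl
    rw [zero_pow hm.ne', mul_zero] at hGH
    exact hιG hGH
  set b : Q̄ := lcHom F₀ H₁ with hb
  have hb0 : b ≠ 0 := by
    rw [hb, Ne, map_eq_zero]
    exact hH₁
  set cG : K := lcHom F₀ G with hcG
  have hcG0 : cG ≠ 0 := by
    rw [hcG, Ne, map_eq_zero]
    exact hG
  have hcG' : (algebraMap K Q̄ cG) = c₁ * b ^ m := by
    rw [hcG, ← lcHom_iota, hGH, map_mul, map_pow, lcHom_algebraMap]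
  -- the monic root
  set H₂ : laurentBaseChange Q̄ F₀ := C b⁻¹ * H₁ with hH₂
  have hH₂lc : lcHom F₀ H₂ = 1 := by
    rw [hH₂, map_mul, lcHom_algebraMap, ← hb, inv_mul_cancel₀ hb0]
  have hH₂0 : H₂ ≠ 0 := by
    intro h0
    rw [h0, map_zero] at hH₂lc
    exact zero_ne_one hH₂lc
  have hCb : C b ≠ 0 := by
    rw [Ne, map_eq_zero]
    exact hb0
  have hpow : iota K F₀ G = C (algebraMap K Q̄ cG) * H₂ ^ m := by
    have hconst : c₁ * b ^ m * b⁻¹ ^ m = c₁ := by
      rw [mul_assoc, ← mul_pow, mul_inv_cancel₀ hb0, one_pow, mul_one]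
    calc iota K F₀ G = C c₁ * H₁ ^ m := hGH
      _ = C (c₁ * b ^ m * b⁻¹ ^ m) * H₁ ^ m := by rw [hconst]
      _ = C (c₁ * b ^ m) * (C b⁻¹ * H₁) ^ m := by
          rw [mul_pow, map_mul C (c₁ * b ^ m) (b⁻¹ ^ m), map_pow C b⁻¹ m]
          ring
      _ = C (algebraMap K Q̄ cG) * H₂ ^ m := by rw [hcG']
  have hCcG : C (algebraMap K Q̄ cG) ≠ 0 := by
    rw [Ne, map_eq_zero, map_eq_zero]
    exact hcG0
  -- `H₂ ^ m` is fixed by `H`
  have hfixpow : ∀ τ ∈ H, arithmeticRingAut F₀ τ (H₂ ^ m) = H₂ ^ m := by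
    intro τ hτ
    have h1 : H₂ ^ m = (C (algebraMap K Q̄ cG))⁻¹ * iota K F₀ G := by
      rw [hpow, ← mul_assoc, inv_mul_cancel₀ hCcG, one_mul]
    have h2 : arithmeticRingAut F₀ τ (C (algebraMap K Q̄ cG)) = C (algebraMap K Q̄ cG) := by
      rw [hC, arithmeticRingAut_algebraMap]
      congr 1
      exact (hK _).1 cG.2 τ hτ
    rw [h1, map_mul, map_inv₀, h2,
      arithmeticRingAut_iota F₀ H K (fun x hx => (hK x).1 hx) G hτ]
  have hfix : ∀ τ ∈ H, arithmeticRingAut F₀ τ H₂ = H₂ := by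
    intro τ hτ
    have hone : (1 : laurentBaseChange Q̄ F₀) ≠ 0 := one_ne_zero
    refine monic_mult_unique F₀ hm hone ?_ hH₂lc ?_
    · rw [lcHom_arithmeticRingAut, hH₂lc, map_one]
    · rw [mul_one, mul_one, ← map_pow, hfixpow τ hτ]
  obtain ⟨a, ha⟩ := exists_iota_eq_of_fixed F₀ H K (fun x hx => (hK x).2 hx) H₂ hfix
  have ha0 : a ≠ 0 := by
    rintro rfl
    rw [map_zero] at ha
    exact hH₂0 ha.symm
  refine ⟨cG, a, hcG0, ha0, ?_⟩
  apply Fermat.Agent.A2.T1.H669.iota_injective K F₀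
  rw [hpow, map_mul, map_pow, ha, Fermat.Agent.A2.T1.H669.iota_algebraMap]

end Gen

/-! ## 2. Norms of constants -/

section NormConst

variable {K₀ F F' : Type*} [Field K₀] [Field F] [Field F'] [Algebra K₀ F] [Algebra K₀ F']

theorem normAlong_algebraMap_h512 (ψ : F →ₐ[K₀] F') (c : K₀) :
    ∃ d : ℕ, normAlong ψ (algebraMap K₀ F' c) = algebraMap K₀ F (c ^ d) := by
  letI := algebraAlong ψ
  refine ⟨Module.finrank F F', ?_⟩
  have h : algebraMap K₀ F' c = algebraMap F F' (algebraMap K₀ F c) := (ψ.commutes c).symm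
  show Algebra.norm F (algebraMap K₀ F' c) = _
  rw [h, Algebra.norm_algebraMap, map_pow]

end NormConst

/-! ## 3. The wiring -/

section Wire

variable (N q : ℕ) [NeZero N] [NeZero q]
variable (H : Subgroup (Q̄ ≃ₐ[ℚ] Q̄)) (K : IntermediateField ℚ Q̄)

/-- The hypotheses and the conclusion of the engine over a field `K ⊆ ℚ̄`, for `m` and an
exponent `c`. -/
def LevelKummerProp (m c : ℕ) : Prop :=
  ∀ g : FE K (N * q), g ≠ 0 → DivisibleDiv K m g →
    (∃ (e : K) (a : FE K N), e ≠ 0 ∧ a ≠ 0 ∧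
      normAlong (heckeAlphaBar K N q) g = algebraMap K (FE K N) e * a ^ m) →
    (∃ (e : K) (a : FE K N), e ≠ 0 ∧ a ≠ 0 ∧
      normAlong (heckeBetaBar K N q) g = algebraMap K (FE K N) e * a ^ m) →
    ∃ (e : K) (y : FE K (N * q)), e ≠ 0 ∧ y ≠ 0 ∧
      g ^ c = algebraMap K (FE K (N * q)) e * y ^ m

/-- **DESC-I, general form.**  `K = ℚ̄^H`.  If the engine holds over `K` for `(m, c)`, then every
`f ∈ F̄_{Nq}ˣ` with `m ∣ div f`, `N_α f`, `N_β f` `m`-th powers and `τ f / f` an `m`-th power for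
all `τ ∈ H` satisfies: `f ^ c` is an `m`-th power. -/
theorem kummer_of_level_gen (hK : ∀ x : Q̄, x ∈ K ↔ ∀ τ ∈ H, τ x = x) {m c : ℕ} (hm : 0 < m)
    (hL : LevelKummerProp N q K m c)
    (f : modularFunctionFieldBar (N * q)) (hf : f ≠ 0)
    (hdiv : ∀ v : Place Q̄ (modularFunctionFieldBar (N * q)), (m : ℤ) ∣ v.ord f)
    (hα : ∃ h : modularFunctionFieldBar N, h ≠ 0 ∧
      normAlong (heckeAlphaBar Q̄ N q) f = h ^ m)
    (hβ : ∃ h : modularFunctionFieldBar N, h ≠ 0 ∧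
      normAlong (heckeBetaBar Q̄ N q) f = h ^ m)
    (hτ : ∀ τ ∈ H, ∃ y : modularFunctionFieldBar (N * q), y ≠ 0 ∧
      arithmeticRingAut (modularFunctionFieldFull (N * q)) τ f = y ^ m * f) :
    ∃ y : modularFunctionFieldBar (N * q), y ≠ 0 ∧ f ^ c = y ^ m := by
  set C : Q̄ →+* modularFunctionFieldBar (N * q) :=
    algebraMap Q̄ (modularFunctionFieldBar (N * q)) with hC
  -- Step 1: descent of `f`
  obtain ⟨g, c₀, h₀, hg0, hc₀, hh₀, hg⟩ :=
    desc_iota_gen (modularFunctionFieldFull (N * q)) H K (fun x hx => (hK x).2 hx) hm f hf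
      (fun τ hτ' => by
        obtain ⟨y, -, hy⟩ := hτ τ hτ'
        exact ⟨1, y, by rw [map_one, one_mul]; exact hy⟩)
  rw [← hC] at hg
  have hCc₀ : C c₀ ≠ 0 := by
    rw [Ne, map_eq_zero]
    exact hc₀
  -- Step 2: divisibility of the divisor
  have hdivK : DivisibleDiv K m g := by
    refine Fermat.Agent.A2.T1.H669.divisibleDiv_of_ord K (modularFunctionFieldFull (N * q)) m g
      hg0 (fun v => ?_)
    rw [hg, v.ord_mul (mul_ne_zero hCc₀ (pow_ne_zero m hh₀)) hf,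
      v.ord_mul hCc₀ (pow_ne_zero m hh₀), Fermat.Agent.A2.H129.ord_algebraMap_eq_zero,
      Fermat.Agent.A2.H129.ord_pow, zero_add]
    exact dvd_add (dvd_mul_right _ _) (hdiv v)
  -- Step 3: the norms
  have hnorm : ∀ (ψ : FE K N →ₐ[K] FE K (N * q))
      (ψ' : modularFunctionFieldBar N →ₐ[Q̄] modularFunctionFieldBar (N * q)),
      (∀ y, iota K (modularFunctionFieldFull N) (normAlong ψ y) =
        normAlong ψ' (iota K (modularFunctionFieldFull (N * q)) y)) →
      FiniteAlong K ψ →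
      (∃ h : modularFunctionFieldBar N, h ≠ 0 ∧ normAlong ψ' f = h ^ m) →
      ∃ (e : K) (a : FE K N), e ≠ 0 ∧ a ≠ 0 ∧
        normAlong ψ g = algebraMap K (FE K N) e * a ^ m := by
    rintro ψ ψ' hcomp hfin ⟨h, -, hh⟩
    obtain ⟨d, hd⟩ := normAlong_algebraMap_h512 ψ' c₀
    refine exists_const_mul_pow_of_iota (modularFunctionFieldFull N) H K hK hm _
      (Fermat.Agent.S29.H395.normAlong_ne_zero ψ hfin hg0) (c₀ ^ d) (normAlong ψ' h₀ * h) ?_
    rw [hcomp, hg, Fermat.Agent.S29.H395.normAlong_mul, Fermat.Agent.S29.H395.normAlong_mul,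
      Fermat.Agent.S29.H395.normAlong_pow, hd, hh, mul_pow, mul_assoc]
  have hfinα := Fermat.Agent.S29.H812.finiteAlong_heckeAlphaBar N q
  have hfinβ := Fermat.Agent.S29.H812.finiteAlong_heckeBetaBar N q
  have hαK := hnorm (heckeAlphaBar K N q) (heckeAlphaBar Q̄ N q)
    (Fermat.Agent.S35.H858.iota_normAlong_alpha K N q hfinα)
    (Fermat.Agent.S35.H858.finiteAlong_of_bar K _ _ _ _
      (Fermat.Agent.S35.H858.iota_heckeAlphaBar K N q) hfinα) hα
  have hβK := hnorm (heckeBetaBar K N q) (heckeBetaBar Q̄ N q)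
    (Fermat.Agent.S35.H858.iota_normAlong_beta K N q hfinβ)
    (Fermat.Agent.S35.H858.finiteAlong_of_bar K _ _ _ _
      (Fermat.Agent.S35.H858.iota_heckeBetaBar K N q) hfinβ) hβ
  -- Step 4: the engine over `K`, and back
  obtain ⟨e, y, he, hy, hgy⟩ := hL g hg0 hdivK hαK hβK
  have hιgy := congrArg (iota K (modularFunctionFieldFull (N * q))) hgy
  rw [map_pow, map_mul, map_pow, Fermat.Agent.A2.T1.H669.iota_algebraMap, hg] at hιgy
  obtain ⟨d, hd⟩ := IsAlgClosed.exists_pow_nat_eq (algebraMap K Q̄ e * (c₀ ^ c)⁻¹) hm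
  have hd0 : d ≠ 0 := by
    rintro rfl
    rw [zero_pow hm.ne'] at hd
    have he' : algebraMap K Q̄ e ≠ 0 := by
      rw [Ne, map_eq_zero]
      exact he
    exact mul_ne_zero he' (inv_ne_zero (pow_ne_zero c hc₀)) hd.symm
  have hCd : C d ≠ 0 := by
    rw [Ne, map_eq_zero]
    exact hd0
  have hιy : iota K (modularFunctionFieldFull (N * q)) y ≠ 0 :=
    Fermat.Agent.A2.T1.H669.iota_ne_zero K _ hy
  refine ⟨C d * iota K (modularFunctionFieldFull (N * q)) y * (h₀ ^ c)⁻¹,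
    mul_ne_zero (mul_ne_zero hCd hιy) (inv_ne_zero (pow_ne_zero c hh₀)), ?_⟩
  have hCe : C (algebraMap K Q̄ e) = C d ^ m * C c₀ ^ c := by
    rw [← map_pow, ← map_pow, ← map_mul, hd, mul_assoc, inv_mul_cancel₀ (pow_ne_zero c hc₀),
      mul_one]
  have hh₀c : h₀ ^ c ≠ 0 := pow_ne_zero c hh₀
  have hh₀m : (h₀ ^ m) ^ c ≠ 0 := pow_ne_zero c (pow_ne_zero m hh₀)
  have hCc₀c : C c₀ ^ c ≠ 0 := pow_ne_zero c hCc₀
  rw [mul_pow, mul_pow, hCe] at hιgy
  -- `hιgy : C c₀ ^ c * (h₀ ^ m) ^ c * f ^ c = C d ^ m * C c₀ ^ c * (iota y) ^ m`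
  have e1 : (h₀ ^ m) ^ c = (h₀ ^ c) ^ m := by
    rw [← pow_mul, ← pow_mul, mul_comm m c]
  rw [e1] at hιgy
  have hinv : ((h₀ ^ c)⁻¹) ^ m * (h₀ ^ c) ^ m = 1 := by
    rw [← mul_pow, inv_mul_cancel₀ hh₀c, one_pow]
  have key : f ^ c * (C c₀ ^ c * (h₀ ^ m) ^ c) =
      (C d * iota K (modularFunctionFieldFull (N * q)) y * (h₀ ^ c)⁻¹) ^ m *
        (C c₀ ^ c * (h₀ ^ m) ^ c) := by
    rw [e1]
    calc f ^ c * (C c₀ ^ c * (h₀ ^ c) ^ m) = C c₀ ^ c * (h₀ ^ c) ^ m * f ^ c := by ring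
      _ = C d ^ m * C c₀ ^ c * iota K (modularFunctionFieldFull (N * q)) y ^ m := hιgy
      _ = (C d * iota K (modularFunctionFieldFull (N * q)) y * (h₀ ^ c)⁻¹) ^ m *
            (C c₀ ^ c * (h₀ ^ c) ^ m) := by
          rw [mul_pow, mul_pow]
          linear_combination
            (-(C d ^ m * iota K (modularFunctionFieldFull (N * q)) y ^ m * C c₀ ^ c)) * hinv
  exact mul_right_cancel₀ (mul_ne_zero hCc₀c hh₀m) key

end Wire

/-! ## 4. The inertia field -/

section Inertia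

variable (N q p : ℕ) [NeZero N] [NeZero q] (P : ValuationSubring Q̄)

/-- **The engine over the inertia field** `K = ℚ̄^{I_P}` (no Galois action left). -/
def LevelKummerAt : Prop :=
  ∃ k : ℕ, ∀ n : ℕ,
    LevelKummerProp N q (Fermat.Agent.A2.IF.H429.inertiaField P) (p ^ n) (p ^ k)

/-- The body of `H36.KummerQNewInertiaStatement` at `(N, q, p, P)`. -/
def KummerAt : Prop :=
  ∃ k : ℕ, ∀ (n : ℕ) (f : modularFunctionFieldBar (N * q)), f ≠ 0 →
    (∀ v : Place Q̄ (modularFunctionFieldBar (N * q)), ((p ^ n : ℕ) : ℤ) ∣ v.ord f) →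
    (∃ h : modularFunctionFieldBar N, h ≠ 0 ∧
      normAlong (heckeAlphaBar Q̄ N q) f = h ^ (p ^ n)) →
    (∃ h : modularFunctionFieldBar N, h ≠ 0 ∧
      normAlong (heckeBetaBar Q̄ N q) f = h ^ (p ^ n)) →
    (∀ τ ∈ P.inertiaSubgroupIn ℚ, ∃ y : modularFunctionFieldBar (N * q), y ≠ 0 ∧
      arithmeticRingAut (modularFunctionFieldFull (N * q)) τ f = y ^ (p ^ n) * f) →
    ∃ y : modularFunctionFieldBar (N * q), y ≠ 0 ∧ f ^ (p ^ k) = y ^ (p ^ n)

/-- **DESC-I.**  The engine over the inertia field implies the Kummer engine. -/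
theorem kummerAt_of_levelAt (hp : 0 < p) (hL : LevelKummerAt N q p P) : KummerAt N q p P := by
  obtain ⟨k, hk⟩ := hL
  refine ⟨k, fun n f hf hdiv hα hβ hτ => ?_⟩
  exact kummer_of_level_gen N q (P.inertiaSubgroupIn ℚ)
    (Fermat.Agent.A2.IF.H429.inertiaField P)
    (fun x => Fermat.Agent.A2.IF.H429.mem_inertiaField_iff P) (pow_pos hp n) (hk n) f hf hdiv
    hα hβ hτ

omit [NeZero q] in
/-- The inertia field is a good level: `R = P ∩ K` is a henselian discrete valuation ring with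
algebraically closed residue field, and the inertia group acts trivially on `K`. -/
theorem goodField_inertiaField (hq : q.Prime) (hP : P.LiesOverPrime q) :
    GoodField P (Fermat.Agent.A2.IF.H429.inertiaField P) where
  stable := fun τ hτ e he => by
    rw [(Fermat.Agent.A2.IF.H429.mem_inertiaField_iff P).1 he τ hτ]
    exact he
  dvr := Fermat.Agent.A2.IF.H429.isDiscreteValuationRing_RE_of_pow P q hq hP
    (Fermat.Agent.A2.IF.H429.inertiaField P) 1 one_pos (fun x hx hx0 => by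
      obtain ⟨k, hk⟩ :=
        Fermat.Agent.A2.IF.H429.exists_zpow_of_mem_inertiaField P q hq hP x hx hx0
      refine ⟨k, ?_⟩
      have hq0 : ((q : Q̄) ^ k) ≠ 0 :=
        zpow_ne_zero k (Nat.cast_ne_zero.2 hq.ne_zero)
      have hv0 : P.valuation ((q : Q̄) ^ k) ≠ 0 := (map_ne_zero _).2 hq0
      rw [map_div₀] at hk
      rw [pow_one, (div_eq_one_iff_eq hv0).1 hk, map_zpow₀])
  henselian := Fermat.Agent.A2.IF.H429.henselian_RE P _ le_rfl
  algClosed := Fermat.Agent.A2.IF.H429.isAlgClosed_residueField_RE P _ q hq hP le_rfl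
  trivial_mod := fun _ hτ _ _ heP =>
    Fermat.Agent.A2.IF.H429.sub_mem_nonunits_of_inertia P hτ heP
  finite_order := fun τ hτ => ⟨1, one_pos, fun e he => by
    simpa using (Fermat.Agent.A2.IF.H429.mem_inertiaField_iff P).1 he τ hτ⟩

end Inertia

end Fermat.Agent.S36.H512
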