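import Fermat.Agent.A2.T1.H849.Iota
import Fermat.Agent.S29.H882.Inter

/-!
# S36-ENGINE, leaf DESC (helper512): Kummer descent along a subgroup of `Gal(ℚ̄/ℚ)`

`F̄ = laurentBaseChange ℚ̄ F₀` (any `F₀ ≤ ℚ((q))`), `H ≤ Gal(ℚ̄/ℚ)` any subgroup, `m > 0`.

If `f ∈ F̄ˣ` satisfies `τ f ∈ ℚ̄ˣ · (F̄ˣ)^m · f` for every `τ ∈ H` (this is what "the class of the
`m`-torsion point cut out by `f` is fixed by `H`" means in the Kummer dictionary), then `f` can be
replaced, inside its class modulo `ℚ̄ˣ · (F̄ˣ)^m`, by a function which is fixed by `H`, and hence has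
all its coefficients in the fixed field `K = ℚ̄^H`:

* `desc_fixed`  : `∃ c ≠ 0, h ≠ 0, ∀ τ ∈ H, τ (c · h^m · f) = c · h^m · f`;
* `desc_iota`   : `∃ g ∈ F_K, g ≠ 0, ι g = c · h^m · f` (`ι = A2.T1.H849.iota`, `K = fixedField H`);
* `desc_fixedField_mem` : an `H`-fixed element of `F̄` comes from `F_K`.

Proof.  Normalise leading coefficients: for monic `f₁` the multiplier `y_τ` with
`τ f₁ = y_τ^m f₁` can be chosen monic and is then unique (`m`-th roots of unity of `F̄` are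
constants), so `τ ↦ y_τ` is an honest 1-cocycle; it factors through a finite quotient because `f₁`
is defined over a number field `E`; Hilbert 90 is then proved by a Poincaré series indexed by the
finite set `E →ₐ[ℚ] ℚ̄` and Dedekind's independence of characters.
-/

set_option autoImplicit false

noncomputable section

namespace Fermat.Agent.S36.H512

open ModularCurve HahnSeries IntermediateField

local notation "Q̄" => AlgebraicClosure ℚ

/-! ## 1. Leading coefficients and `coeffMap` -/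

section LC

variable {R S : Type*} [CommRing R] [CommRing S]

theorem order_coeffMap (φ : R →+* S) (hφ : Function.Injective φ) (x : LaurentSeries R) :
    (coeffMap φ x).order = x.order := by
  by_cases hx : x = 0
  · subst hx
    simp
  · have hx' : coeffMap φ x ≠ 0 := fun h =>
      hx (Fermat.Agent.S18.H602.coeffMap_injective φ hφ (h.trans (map_zero _).symm))
    apply le_antisymm
    · apply HahnSeries.order_le_of_coeff_ne_zero
      rw [coeffMap_coeff]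
      intro h
      have h0 : x.coeff x.order = 0 := hφ (h.trans (map_zero φ).symm)
      exact hx (HahnSeries.coeff_order_eq_zero.1 h0)
    · apply HahnSeries.order_le_of_coeff_ne_zero
      intro h
      have h2 : (coeffMap φ x).coeff (coeffMap φ x).order ≠ 0 :=
        fun h0 => hx' (HahnSeries.coeff_order_eq_zero.1 h0)
      rw [coeffMap_coeff, h, map_zero] at h2
      exact h2 rfl

theorem leadingCoeff_coeffMap (φ : R →+* S) (hφ : Function.Injective φ) (x : LaurentSeries R) :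
    (coeffMap φ x).leadingCoeff = φ x.leadingCoeff := by
  rw [HahnSeries.leadingCoeff_eq, HahnSeries.leadingCoeff_eq, order_coeffMap φ hφ, coeffMap_coeff]

end LC

/-! ## 2. The leading coefficient on the function field -/

section Field

variable {L : Type*} [Field L] [Algebra ℚ L] (F₀ : IntermediateField ℚ (LaurentSeries ℚ))

/-- The leading coefficient, as a multiplicative map `F_L → L`. -/
def lcHom : laurentBaseChange L F₀ →*₀ L where
  toFun x := (x : LaurentSeries L).leadingCoeff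
  map_zero' := HahnSeries.leadingCoeff_zero
  map_one' := HahnSeries.leadingCoeff_one
  map_mul' x y := HahnSeries.leadingCoeff_mul (x : LaurentSeries L) (y : LaurentSeries L)

theorem lcHom_apply (x : laurentBaseChange L F₀) :
    lcHom F₀ x = (x : LaurentSeries L).leadingCoeff := rfl

theorem lcHom_algebraMap (c : L) :
    lcHom F₀ (algebraMap L (laurentBaseChange L F₀) c) = c := by
  show (algebraMap L (LaurentSeries L) c).leadingCoeff = c
  rw [algebraMap_laurentSeries_eq_single, HahnSeries.leadingCoeff_of_single]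

theorem lcHom_arithmeticRingAut (σ : L ≃ₐ[ℚ] L) (x : laurentBaseChange L F₀) :
    lcHom F₀ (arithmeticRingAut F₀ σ x) = σ (lcHom F₀ x) := by
  show (coeffMap (σ : L →+* L) (x : LaurentSeries L)).leadingCoeff = _
  rw [leadingCoeff_coeffMap _ σ.injective]
  rfl

theorem arithmeticRingAut_mul_apply (σ τ : L ≃ₐ[ℚ] L) (x : laurentBaseChange L F₀) :
    arithmeticRingAut F₀ (σ * τ) x = arithmeticRingAut F₀ σ (arithmeticRingAut F₀ τ x) := by
  apply Subtype.ext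
  show coeffMap ((σ * τ : L ≃ₐ[ℚ] L) : L →+* L) (x : LaurentSeries L)
    = coeffMap (σ : L →+* L) (coeffMap (τ : L →+* L) (x : LaurentSeries L))
  rw [coeffMap_coeffMap]
  exact coeffMap_congr (RingHom.ext fun _ => rfl) _

theorem arithmeticRingAut_one_apply (x : laurentBaseChange L F₀) :
    arithmeticRingAut F₀ (1 : L ≃ₐ[ℚ] L) x = x := by
  apply Subtype.ext
  show coeffMap ((1 : L ≃ₐ[ℚ] L) : L →+* L) (x : LaurentSeries L) = (x : LaurentSeries L)
  rw [show ((1 : L ≃ₐ[ℚ] L) : L →+* L) = RingHom.id L from RingHom.ext fun _ => rfl,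
    coeffMap_id]

end Field

/-! ## 3. Monic `m`-th roots of unity are trivial -/

section Roots

variable (F₀ : IntermediateField ℚ (LaurentSeries ℚ))

theorem eq_one_of_pow_eq_one_of_lc {m : ℕ} (hm : 0 < m) (u : laurentBaseChange Q̄ F₀)
    (hu : u ^ m = 1) (hlc : lcHom F₀ u = 1) : u = 1 := by
  have : NeZero m := ⟨hm.ne'⟩
  have : NeZero (m : ℚ) := ⟨by exact_mod_cast hm.ne'⟩
  obtain ⟨ζ, hζ⟩ := HasEnoughRootsOfUnity.exists_primitiveRoot Q̄ m
  have hζ' : IsPrimitiveRoot (algebraMap Q̄ (laurentBaseChange Q̄ F₀) ζ) m :=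
    hζ.map_of_injective (algebraMap Q̄ (laurentBaseChange Q̄ F₀)).injective
  obtain ⟨i, -, hi⟩ := hζ'.eq_pow_of_pow_eq_one hu
  have h1 : ζ ^ i = 1 := by
    have h2 := congrArg (lcHom F₀) hi
    rwa [map_pow, lcHom_algebraMap, hlc] at h2
  rw [← hi, ← map_pow, h1, map_one]

/-- Uniqueness of the monic multiplier. -/
theorem monic_mult_unique {m : ℕ} (hm : 0 < m) {f₁ : laurentBaseChange Q̄ F₀} (hf₁ : f₁ ≠ 0)
    {y y' : laurentBaseChange Q̄ F₀} (hy : lcHom F₀ y = 1) (hy' : lcHom F₀ y' = 1)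
    (h : y ^ m * f₁ = y' ^ m * f₁) : y = y' := by
  have hy'0 : y' ≠ 0 := by
    rintro rfl
    rw [map_zero] at hy'
    exact zero_ne_one hy'
  have h2 : y ^ m = y' ^ m := mul_right_cancel₀ hf₁ h
  have h3 : (y / y') ^ m = 1 := by
    rw [div_pow, h2, div_self (pow_ne_zero _ hy'0)]
  have h4 : lcHom F₀ (y / y') = 1 := by
    rw [map_div₀, hy, hy', div_one]
  exact (div_eq_one_iff_eq hy'0).1 (eq_one_of_pow_eq_one_of_lc F₀ hm _ h3 h4)

end Roots

/-! ## 4. Hilbert 90 for the monic cocycle -/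

section Monic

variable (F₀ : IntermediateField ℚ (LaurentSeries ℚ))

/-- Post-composition with `σ` on the set of embeddings `E →ₐ[ℚ] ℚ̄`. -/
def compEquiv (E : IntermediateField ℚ Q̄) (σ : Q̄ ≃ₐ[ℚ] Q̄) :
    (E →ₐ[ℚ] Q̄) ≃ (E →ₐ[ℚ] Q̄) where
  toFun φ := (σ : Q̄ →ₐ[ℚ] Q̄).comp φ
  invFun φ := (σ.symm : Q̄ →ₐ[ℚ] Q̄).comp φ
  left_inv φ := by
    ext e
    simp
  right_inv φ := by
    ext e
    simp

theorem compEquiv_apply (E : IntermediateField ℚ Q̄) (σ : Q̄ ≃ₐ[ℚ] Q̄) (φ : E →ₐ[ℚ] Q̄) (e : E) :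
    compEquiv E σ φ e = σ (φ e) := rfl

/-- Restriction of an automorphism of `ℚ̄` to `E`. -/
def resEmb (E : IntermediateField ℚ Q̄) (τ : Q̄ ≃ₐ[ℚ] Q̄) : E →ₐ[ℚ] Q̄ :=
  (τ : Q̄ →ₐ[ℚ] Q̄).comp E.val

theorem resEmb_apply (E : IntermediateField ℚ Q̄) (τ : Q̄ ≃ₐ[ℚ] Q̄) (e : E) :
    resEmb E τ e = τ (e : Q̄) := rfl

theorem compEquiv_resEmb (E : IntermediateField ℚ Q̄) (σ τ : Q̄ ≃ₐ[ℚ] Q̄) :
    compEquiv E σ (resEmb E τ) = resEmb E (σ * τ) := rfl

/-- If `f₁` is defined over `E`, then `τ f₁` only depends on `τ|_E`. -/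
theorem arithmeticRingAut_eq_of_resEmb_eq {E : IntermediateField ℚ Q̄}
    {f₁ : laurentBaseChange Q̄ F₀}
    (hE : Fermat.Agent.S18.H602.DescendsTo F₀ E (f₁ : LaurentSeries Q̄))
    {τ τ' : Q̄ ≃ₐ[ℚ] Q̄} (h : resEmb E τ = resEmb E τ') :
    arithmeticRingAut F₀ τ f₁ = arithmeticRingAut F₀ τ' f₁ := by
  obtain ⟨y₀, -, hy₀⟩ := hE
  apply Subtype.ext
  show coeffMap (τ : Q̄ →+* Q̄) (f₁ : LaurentSeries Q̄) = coeffMap (τ' : Q̄ →+* Q̄) (f₁ : LaurentSeries Q̄)
  rw [← hy₀, coeffMap_coeffMap, coeffMap_coeffMap]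
  refine coeffMap_congr (RingHom.ext fun e => ?_) _
  exact congrArg (fun φ : E →ₐ[ℚ] Q̄ => φ e) h

/-- **Hilbert 90 for the monic Kummer cocycle.** -/
theorem desc_monic (H : Subgroup (Q̄ ≃ₐ[ℚ] Q̄)) {m : ℕ} (hm : 0 < m)
    (f₁ : laurentBaseChange Q̄ F₀) (hf₁ : f₁ ≠ 0)
    (hY : ∀ τ ∈ H, ∃ y : laurentBaseChange Q̄ F₀, lcHom F₀ y = 1 ∧
      arithmeticRingAut F₀ τ f₁ = y ^ m * f₁) :
    ∃ h : laurentBaseChange Q̄ F₀, h ≠ 0 ∧
      ∀ τ ∈ H, arithmeticRingAut F₀ τ (h ^ m * f₁) = h ^ m * f₁ := by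
  classical
  -- the cocycle
  let Y : (Q̄ ≃ₐ[ℚ] Q̄) → laurentBaseChange Q̄ F₀ := fun τ =>
    if h : τ ∈ H then Classical.choose (hY τ h) else 0
  have hYlc : ∀ τ ∈ H, lcHom F₀ (Y τ) = 1 := by
    intro τ hτ
    simp only [Y, dif_pos hτ]
    exact (Classical.choose_spec (hY τ hτ)).1
  have hYeq : ∀ τ ∈ H, arithmeticRingAut F₀ τ f₁ = Y τ ^ m * f₁ := by
    intro τ hτ
    simp only [Y, dif_pos hτ]
    exact (Classical.choose_spec (hY τ hτ)).2
  have hYchar : ∀ τ ∈ H, ∀ y : laurentBaseChange Q̄ F₀, lcHom F₀ y = 1 →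
      arithmeticRingAut F₀ τ f₁ = y ^ m * f₁ → y = Y τ := by
    intro τ hτ y hy hyeq
    exact monic_mult_unique F₀ hm hf₁ hy (hYlc τ hτ) (hyeq.symm.trans (hYeq τ hτ))
  have hY0 : ∀ τ ∈ H, Y τ ≠ 0 := by
    intro τ hτ h0
    have := hYlc τ hτ
    rw [h0, map_zero] at this
    exact zero_ne_one this
  have hY1 : Y 1 = 1 := by
    refine (hYchar 1 H.one_mem 1 (map_one _) ?_).symm
    rw [arithmeticRingAut_one_apply, one_pow, one_mul]
  have hcoc : ∀ σ ∈ H, ∀ τ ∈ H, Y (σ * τ) = Y σ * arithmeticRingAut F₀ σ (Y τ) := by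
    intro σ hσ τ hτ
    refine (hYchar (σ * τ) (H.mul_mem hσ hτ) _ ?_ ?_).symm
    · rw [map_mul, hYlc σ hσ, lcHom_arithmeticRingAut, hYlc τ hτ, map_one, one_mul]
    · rw [arithmeticRingAut_mul_apply, hYeq τ hτ, map_mul, map_pow, hYeq σ hσ]
      ring
  -- finite level
  obtain ⟨E, hfin, hE⟩ := Fermat.Agent.S18.H602.exists_finite_descent (F₀ := F₀) f₁.2
  have hres : ∀ τ ∈ H, ∀ τ' ∈ H, resEmb E τ = resEmb E τ' → Y τ = Y τ' := by
    intro τ hτ τ' hτ' h
    refine hYchar τ' hτ' (Y τ) (hYlc τ hτ) ?_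
    rw [← hYeq τ hτ]
    exact (arithmeticRingAut_eq_of_resEmb_eq F₀ hE h).symm
  -- the cocycle on embeddings
  let Yt : (E →ₐ[ℚ] Q̄) → laurentBaseChange Q̄ F₀ := fun φ =>
    if h : ∃ τ ∈ H, resEmb E τ = φ then Y (Classical.choose h) else 0
  have hYt : ∀ τ ∈ H, Yt (resEmb E τ) = Y τ := by
    intro τ hτ
    have hex : ∃ τ' ∈ H, resEmb E τ' = resEmb E τ := ⟨τ, hτ, rfl⟩
    simp only [Yt, dif_pos hex]
    exact hres _ (Classical.choose_spec hex).1 τ hτ (Classical.choose_spec hex).2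
  have hYt0 : ∀ φ : E →ₐ[ℚ] Q̄, (¬ ∃ τ ∈ H, resEmb E τ = φ) → Yt φ = 0 := by
    intro φ hφ
    simp only [Yt, dif_neg hφ]
  have hYtσ : ∀ σ ∈ H, ∀ φ : E →ₐ[ℚ] Q̄,
      Y σ * arithmeticRingAut F₀ σ (Yt φ) = Yt (compEquiv E σ φ) := by
    intro σ hσ φ
    by_cases hφ : ∃ τ ∈ H, resEmb E τ = φ
    · obtain ⟨τ, hτ, rfl⟩ := hφ
      rw [hYt τ hτ, compEquiv_resEmb, hYt (σ * τ) (H.mul_mem hσ hτ), hcoc σ hσ τ hτ]
    · have hφ' : ¬ ∃ τ ∈ H, resEmb E τ = compEquiv E σ φ := by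
        rintro ⟨τ, hτ, h⟩
        refine hφ ⟨σ⁻¹ * τ, H.mul_mem (H.inv_mem hσ) hτ, ?_⟩
        rw [← compEquiv_resEmb, h]
        exact (compEquiv E σ).symm_apply_apply φ
      rw [hYt0 φ hφ, hYt0 _ hφ', map_zero, mul_zero]
  -- the Poincaré series
  let C : Q̄ →+* laurentBaseChange Q̄ F₀ := algebraMap Q̄ (laurentBaseChange Q̄ F₀)
  let P : E → laurentBaseChange Q̄ F₀ := fun θ => ∑ φ : E →ₐ[ℚ] Q̄, Yt φ * C (φ θ)
  have hP : ∀ σ ∈ H, ∀ θ : E, Y σ * arithmeticRingAut F₀ σ (P θ) = P θ := by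
    intro σ hσ θ
    calc Y σ * arithmeticRingAut F₀ σ (P θ)
        = ∑ φ : E →ₐ[ℚ] Q̄, Yt (compEquiv E σ φ) * C (compEquiv E σ φ θ) := by
          simp only [P]
          rw [map_sum, Finset.mul_sum]
          refine Finset.sum_congr rfl fun φ _ => ?_
          rw [map_mul, ← mul_assoc, hYtσ σ hσ φ]
          congr 1
          exact arithmeticRingAut_algebraMap F₀ σ (φ θ)
      _ = P θ := Equiv.sum_comp (compEquiv E σ) (fun ψ => Yt ψ * C (ψ θ))
  -- non-vanishing by Dedekind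
  have hne : ∃ θ : E, P θ ≠ 0 := by
    by_contra hcon
    push Not at hcon
    let χ : (E →ₐ[ℚ] Q̄) → (E →* laurentBaseChange Q̄ F₀) := fun φ =>
      (C : Q̄ →* laurentBaseChange Q̄ F₀).comp (φ : E →* Q̄)
    have hχ : Function.Injective χ := by
      intro φ φ' h
      ext e
      have := congrArg (fun ψ : E →* laurentBaseChange Q̄ F₀ => ψ e) h
      exact C.injective this
    have hli := (linearIndependent_monoidHom E (laurentBaseChange Q̄ F₀)).comp χ hχ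
    have h0 : Yt (resEmb E 1) = 0 := by
      refine Fintype.linearIndependent_iff.1 hli Yt ?_ (resEmb E 1)
      funext θ
      rw [Finset.sum_apply]
      exact hcon θ
    rw [hYt 1 H.one_mem, hY1] at h0
    exact one_ne_zero h0
  obtain ⟨θ, hθ⟩ := hne
  refine ⟨P θ, hθ, fun τ hτ => ?_⟩
  rw [map_mul, map_pow, hYeq τ hτ, ← mul_assoc, ← mul_pow, mul_comm _ (Y τ), hP τ hτ θ]

end Monic

/-! ## 5. The general case -/

section Main

variable (F₀ : IntermediateField ℚ (LaurentSeries ℚ))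

/-- **DESC, fixed-point form.**  If `τ f ∈ ℚ̄ · (F̄)^m · f` for all `τ ∈ H`, then some
`c · h^m · f` (`c ∈ ℚ̄ˣ`, `h ∈ F̄ˣ`) is fixed by `H`. -/
theorem desc_fixed (H : Subgroup (Q̄ ≃ₐ[ℚ] Q̄)) {m : ℕ} (hm : 0 < m)
    (f : laurentBaseChange Q̄ F₀) (hf : f ≠ 0)
    (hinv : ∀ τ ∈ H, ∃ (c : Q̄) (y : laurentBaseChange Q̄ F₀),
      arithmeticRingAut F₀ τ f = algebraMap Q̄ (laurentBaseChange Q̄ F₀) c * y ^ m * f) :
    ∃ (c : Q̄) (h : laurentBaseChange Q̄ F₀), c ≠ 0 ∧ h ≠ 0 ∧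
      ∀ τ ∈ H, arithmeticRingAut F₀ τ (algebraMap Q̄ (laurentBaseChange Q̄ F₀) c * h ^ m * f) =
        algebraMap Q̄ (laurentBaseChange Q̄ F₀) c * h ^ m * f := by
  set C : Q̄ →+* laurentBaseChange Q̄ F₀ := algebraMap Q̄ (laurentBaseChange Q̄ F₀) with hC
  set a : Q̄ := lcHom F₀ f with ha
  have ha0 : a ≠ 0 := by
    rw [ha, Ne, map_eq_zero]
    exact hf
  set f₁ : laurentBaseChange Q̄ F₀ := C a⁻¹ * f with hf₁def
  have hCa : C a⁻¹ ≠ 0 := by
    rw [Ne, map_eq_zero]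
    exact inv_ne_zero ha0
  have hf₁ : f₁ ≠ 0 := mul_ne_zero hCa hf
  have hmon : ∀ τ ∈ H, ∃ y : laurentBaseChange Q̄ F₀, lcHom F₀ y = 1 ∧
      arithmeticRingAut F₀ τ f₁ = y ^ m * f₁ := by
    intro τ hτ
    obtain ⟨c, y, hcy⟩ := hinv τ hτ
    have hτf : arithmeticRingAut F₀ τ f ≠ 0 := by
      rw [Ne, map_eq_zero_iff _ (arithmeticRingAut F₀ τ).injective]
      exact hf
    have hy0 : y ≠ 0 := by
      rintro rfl
      rw [zero_pow hm.ne', mul_zero, zero_mul] at hcy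
      exact hτf hcy
    set b : Q̄ := lcHom F₀ y with hb
    have hb0 : b ≠ 0 := by
      rw [hb, Ne, map_eq_zero]
      exact hy0
    have key : τ a = c * b ^ m * a := by
      have h2 := congrArg (lcHom F₀) hcy
      rwa [lcHom_arithmeticRingAut, map_mul, map_mul, lcHom_algebraMap, map_pow] at h2
    have hc0 : c ≠ 0 := by
      rintro rfl
      rw [zero_mul, zero_mul] at key
      exact ha0 ((map_eq_zero_iff τ τ.injective).1 key)
    refine ⟨C b⁻¹ * y, ?_, ?_⟩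
    · rw [map_mul, lcHom_algebraMap, ← hb, inv_mul_cancel₀ hb0]
    · have hτC : arithmeticRingAut F₀ τ (C a⁻¹) = C (τ a⁻¹) := arithmeticRingAut_algebraMap F₀ τ a⁻¹
      have hconst : C (τ a⁻¹) * C c = C b⁻¹ ^ m * C a⁻¹ := by
        have h3 : τ a⁻¹ * c = b⁻¹ ^ m * a⁻¹ := by
          rw [map_inv₀, key, inv_pow]
          field_simp
        rw [← map_pow, ← map_mul, ← map_mul, h3]
      rw [hf₁def, map_mul, hτC, hcy, mul_pow]
      linear_combination (y ^ m * f) * hconst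
  obtain ⟨h, hh0, hfix⟩ := desc_monic F₀ H hm f₁ hf₁ hmon
  refine ⟨a⁻¹, h, inv_ne_zero ha0, hh0, fun τ hτ => ?_⟩
  have e : C a⁻¹ * h ^ m * f = h ^ m * f₁ := by
    rw [hf₁def]
    ring
  rw [e]
  exact hfix τ hτ

/-- An `H`-fixed element of `F̄` comes from `F_K`, `K = ℚ̄^H`. -/
theorem desc_fixedField_mem (H : Subgroup (Q̄ ≃ₐ[ℚ] Q̄)) (f' : laurentBaseChange Q̄ F₀)
    (hfix : ∀ τ ∈ H, arithmeticRingAut F₀ τ f' = f') :
    ∃ g : laurentBaseChange (IntermediateField.fixedField H) F₀,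
      Fermat.Agent.A2.T1.H849.iota (IntermediateField.fixedField H) F₀ g = f' := by
  have hcoeff : ∀ n : ℤ, (f' : LaurentSeries Q̄).coeff n ∈
      Set.range (algebraMap (IntermediateField.fixedField H) Q̄) := by
    intro n
    have hmem : (f' : LaurentSeries Q̄).coeff n ∈ IntermediateField.fixedField H := by
      rw [IntermediateField.mem_fixedField_iff]
      intro τ hτ
      have h2 := congrArg (fun z : laurentBaseChange Q̄ F₀ => (z : LaurentSeries Q̄).coeff n)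
        (hfix τ hτ)
      simpa using h2
    exact ⟨⟨_, hmem⟩, rfl⟩
  obtain ⟨y, hy⟩ := Fermat.Agent.S18.H602.exists_coeffMap_eq
    (algebraMap (IntermediateField.fixedField H) Q̄)
    (algebraMap (IntermediateField.fixedField H) Q̄).injective (f' : LaurentSeries Q̄) hcoeff
  have hymem : y ∈ laurentBaseChange (IntermediateField.fixedField H) F₀ := by
    apply Fermat.Agent.S29.H882.mem_laurentBaseChange_of_coeffMap_mem
      (algebraMap (IntermediateField.fixedField H) Q̄) F₀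
    rw [hy]
    exact f'.2
  exact ⟨⟨y, hymem⟩, Subtype.ext hy⟩

/-- **DESC, descended form.**  If `τ f ∈ ℚ̄ · (F̄)^m · f` for all `τ ∈ H`, then
`c · h^m · f = ι g` for a function `g ≠ 0` defined over the fixed field `K = ℚ̄^H`. -/
theorem desc_iota (H : Subgroup (Q̄ ≃ₐ[ℚ] Q̄)) {m : ℕ} (hm : 0 < m)
    (f : laurentBaseChange Q̄ F₀) (hf : f ≠ 0)
    (hinv : ∀ τ ∈ H, ∃ (c : Q̄) (y : laurentBaseChange Q̄ F₀),
      arithmeticRingAut F₀ τ f = algebraMap Q̄ (laurentBaseChange Q̄ F₀) c * y ^ m * f) :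
    ∃ (g : laurentBaseChange (IntermediateField.fixedField H) F₀) (c : Q̄)
      (h : laurentBaseChange Q̄ F₀), g ≠ 0 ∧ c ≠ 0 ∧ h ≠ 0 ∧
      Fermat.Agent.A2.T1.H849.iota (IntermediateField.fixedField H) F₀ g =
        algebraMap Q̄ (laurentBaseChange Q̄ F₀) c * h ^ m * f := by
  obtain ⟨c, h, hc, hh, hfix⟩ := desc_fixed F₀ H hm f hf hinv
  obtain ⟨g, hg⟩ := desc_fixedField_mem F₀ H _ hfix
  refine ⟨g, c, h, ?_, hc, hh, hg⟩
  rintro rfl
  rw [map_zero] at hg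
  have hCc : algebraMap Q̄ (laurentBaseChange Q̄ F₀) c ≠ 0 := by
    rw [Ne, map_eq_zero]
    exact hc
  exact mul_ne_zero (mul_ne_zero hCc (pow_ne_zero m hh)) hf hg.symm

end Main

end Fermat.Agent.S36.H512
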