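import Fermat.Agent.S36.H512.DescWire
import Fermat.Agent.S36.H36.Kummer

/-!
# S36-ENGINE, cell DESC-I (helper512): statement-level wrapper

`kummerQNewInertia_of_level` : if the engine holds over the inertia field `K = ℚ̄^{I_P}`
(`H512.LevelKummerAt N q p P`, see `DescWire.lean`) for all `N, q, p, P` as in
`H36.KummerQNewInertiaStatement`, then `H36.KummerQNewInertiaStatement` holds.
-/

set_option autoImplicit false

namespace Fermat.Agent.S36.H512

/-- `KummerAt` is, verbatim, the body of `H36.KummerQNewInertiaStatement`. -/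
theorem kummerQNewInertia_of_kummerAt
    (h : ∀ (N q p : ℕ) [NeZero N] [NeZero q], q.Prime → N.factorization q = 1 → p.Prime →
      p ≠ q → ∀ P : ValuationSubring (AlgebraicClosure ℚ), P.LiesOverPrime q →
        KummerAt N q p P) :
    Fermat.Agent.S36.H36.KummerQNewInertiaStatement :=
  fun N q p _ _ hq hfac hp hpq P hP => h N q p hq hfac hp hpq P hP

/-- **DESC-I, statement level.** -/
theorem kummerQNewInertia_of_level
    (h : ∀ (N q p : ℕ) [NeZero N] [NeZero q], q.Prime → N.factorization q = 1 → p.Prime →
      p ≠ q → ∀ P : ValuationSubring (AlgebraicClosure ℚ), P.LiesOverPrime q →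
        LevelKummerAt N q p P) :
    Fermat.Agent.S36.H36.KummerQNewInertiaStatement :=
  kummerQNewInertia_of_kummerAt fun N q p _ _ hq hfac hp hpq P hP =>
    kummerAt_of_levelAt N q p P hp.pos (h N q p hq hfac hp hpq P hP)

end Fermat.Agent.S36.H512
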